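import Fermat.Prelude.Def_FLTPrelim_ModularRep
import Fermat.Agent.Mod2.Defs
import Fermat.Agent.Mod2.CurveTwo
import Fermat.Agent.Mod2.CurveSpecial
import Fermat.Agent.Local.Eigenforms

/-!
# The 2-adic representation of the curve, and modularity from an eigensystem

`exists_setup_of_curve`: a semistable curve with `Δ < 0` even, irreducible mod 2 and of odd
valuation of `Δ` at all bad primes gives a `Setup` and its Tate module as a minimal deformation.
`isModularModelOfLevel_of_eigensystem`: a homomorphism from the Hecke algebra of level `N` to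
`ℤ_[2]` with the traces of the curve makes it modular of level `N`.
-/

set_option autoImplicit false

noncomputable section

namespace FLTAgent.Mod2

open CongruenceSubgroup Matrix CurveRep

/-- `n` is the product of its prime divisors times a square when all exponents are odd. -/
theorem exists_eq_prod_primeFactors_mul_sq {n : ℕ} (hn : n ≠ 0)
    (h : ∀ p ∈ n.primeFactors, Odd (padicValNat p n)) :
    ∃ s : ℕ, n = (∏ p ∈ n.primeFactors, p) * s ^ 2 := by
  refine ⟨∏ p ∈ n.primeFactors, p ^ (padicValNat p n / 2), ?_⟩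
  rw [← Finset.prod_pow, ← Finset.prod_mul_distrib]
  conv_lhs => rw [← Nat.prod_factorization_pow_eq_self hn]
  rw [Nat.prod_factorization_eq_prod_primeFactors]
  refine Finset.prod_congr rfl fun p hp => ?_
  have hpp := Nat.prime_of_mem_primeFactors hp
  rw [Nat.factorization_def n hpp, ← pow_mul, ← pow_succ']
  obtain ⟨k, hk⟩ := h p hp
  congr 1
  omega

/-- The Tate module of a semistable curve all of whose bad primes have odd valuation of the
discriminant is a point of the minimal deformation problem. -/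
theorem exists_setup_of_curve (E : WeierstrassCurve ℤ) (hE : E.IsSemistableModel)
    (hneg : E.Δ < 0) (h2 : (2 : ℤ) ∣ E.Δ)
    (hodd : ∀ q : ℕ, q.Prime → (q : ℤ) ∣ E.Δ → Odd (padicValInt q E.Δ))
    (hirr : E.ModRepIsIrreducible 2) :
    ∃ (D : Setup) (u : ℕ → ℤ_[2]) (r : Gal2 →* Mat2 ℤ_[2]), D.IsDef ∅ u r ∧
      (∀ q : ℕ, q.Prime → (q ∣ 2 * D.m ↔ (q : ℤ) ∣ E.Δ)) ∧
      ∀ l : ℕ, l.Prime → ¬ l ∣ 2 * D.m → ∀ A : ValuationSubring (AlgebraicClosure ℚ),
        A.LiesOverPrime l → ∀ φ : Gal2, A.IsFrobeniusAt φ l →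
          (r φ).trace = (E.apOfModel l : ℤ_[2]) := by
  classical
  have hΔ : E.Δ ≠ 0 := hneg.ne
  obtain ⟨B⟩ := exists_twoBasis (natCard_two_pow_torsion (E := E) hΔ)
  have hsome := exists_resRep_ne_one B hΔ hirr
  have hdet := det_tateRep B hΔ hsome
  -- the conductor
  set n := E.Δ.natAbs with hn
  have hn0 : n ≠ 0 := Int.natAbs_ne_zero.2 hΔ
  have hbad : ∀ q : ℕ, q.Prime → (q ∈ n.primeFactors ↔ (q : ℤ) ∣ E.Δ) := fun q hq => by
    rw [Nat.mem_primeFactors, Int.natCast_dvd]
    exact ⟨fun h => h.2.1, fun h => ⟨hq, h, hn0⟩⟩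
  obtain ⟨s, hs⟩ := exists_eq_prod_primeFactors_mul_sq hn0 fun p hp =>
    hodd p (Nat.prime_of_mem_primeFactors hp) ((hbad p (Nat.prime_of_mem_primeFactors hp)).1 hp)
  set m := ∏ p ∈ n.primeFactors.erase 2, p with hm
  have h2mem : 2 ∈ n.primeFactors := (hbad 2 Nat.prime_two).2 h2
  have h2m : 2 * m = ∏ p ∈ n.primeFactors, p :=
    Finset.mul_prod_erase n.primeFactors (fun p => p) h2mem
  have hdvd : ∀ q : ℕ, q.Prime → (q ∣ 2 * m ↔ (q : ℤ) ∣ E.Δ) := fun q hq => by
    rw [← hbad q hq, h2m]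
    refine ⟨fun h => ?_, fun h => Finset.dvd_prod_of_mem (fun p => p) h⟩
    obtain ⟨p, hp, hqp⟩ := (hq.prime.dvd_finsetProd_iff _).1 h
    rwa [(Nat.prime_dvd_prime_iff_eq hq (Nat.prime_of_mem_primeFactors hp)).1 hqp]
  have hmodd : Odd m := by
    rw [Nat.odd_iff, ← Nat.two_dvd_ne_zero]
    intro h
    obtain ⟨p, hp, h2p⟩ := (Nat.prime_two.prime.dvd_finsetProd_iff _).1 h
    exact (Finset.mem_erase.1 hp).1
      ((Nat.prime_dvd_prime_iff_eq Nat.prime_two
        (Nat.prime_of_mem_primeFactors (Finset.mem_of_mem_erase hp))).1 h2p).symm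
  have hsqf : Squarefree m := by
    have key : ∀ T : Finset ℕ, (∀ p ∈ T, p.Prime) → Squarefree (∏ p ∈ T, p) := by
      intro T
      induction T using Finset.induction_on with
      | empty => simp
      | insert a T ha ih =>
        intro hT
        rw [Finset.prod_insert ha, Nat.squarefree_mul_iff]
        refine ⟨Nat.Coprime.prod_right fun b hb => (Nat.coprime_primes (hT a (Finset.mem_insert_self _ _))
          (hT b (Finset.mem_insert_of_mem hb))).2 fun h => ha (h ▸ hb),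
          (hT a (Finset.mem_insert_self _ _)).squarefree,
          ih fun p hp => hT p (Finset.mem_insert_of_mem hp)⟩
    exact key _ fun p hp => Nat.prime_of_mem_primeFactors (Finset.mem_of_mem_erase hp)
  -- the eigenvalues
  have hspec : ∀ v : ℕ, ∃ u : ℤ_[2], v.Prime → (v : ℤ) ∣ E.Δ → SpecialAt v u (tateRep B) := by
    intro v
    by_cases hv : v.Prime ∧ (v : ℤ) ∣ E.Δ
    · obtain ⟨u, hu⟩ := exists_specialAt B hΔ hdet hv.1 hv.2 (hE v hv.1 hv.2)
      exact ⟨u, fun _ _ => hu⟩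
    · exact ⟨1, fun h h' => absurd ⟨h, h'⟩ hv⟩
  choose u hu using hspec
  -- the residual representation
  have hram : ∀ q : ℕ, q.Prime → q ∣ 2 * m → ∀ A : ValuationSubring (AlgebraicClosure ℚ),
      A.LiesOverPrime q → (∀ σ ∈ A.inertiaSubgroupIn ℚ, resRep B σ * resRep B σ = 1) ∧
        ∃ σ ∈ A.inertiaSubgroupIn ℚ, resRep B σ ≠ 1 := by
    intro q hq hqm A hA
    have hqΔ := (hdvd q hq).1 hqm
    refine ⟨fun σ hσ => ?_, ?_⟩
    · have h := (hu q hq hqΔ).inertia A hA σ hσ σ hσ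
      have h' := congrArg (PadicInt.toZMod (p := 2)).mapMatrix h
      rw [map_zero, map_mul, map_sub, map_sub, map_one] at h'
      have hchi : PadicInt.toZMod (chi2 σ) = 1 := by
        refine Fin.eq_one_of_ne_zero _ fun h0 => ?_
        have := congrArg PadicInt.toZMod
          (show chi2 σ * chi2 σ⁻¹ = 1 by rw [← map_mul, mul_inv_cancel, map_one])
        rw [map_mul, h0, map_one] at this
        exact zero_ne_one ((zero_mul _).symm.trans this)
      have e : (PadicInt.toZMod (p := 2)).mapMatrix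
          (algebraMap ℤ_[2] ℤ_[2] (chi2 σ) • (1 : Mat2 ℤ_[2])) = 1 := by
        ext i j; rcases eq_or_ne i j with rfl | hij <;> simp [*]
      rw [e] at h'
      change (resRep B σ - 1) * (resRep B σ - 1) = 0 at h'
      have h2 : ∀ X : Mat2 (ZMod 2), (X - 1) * (X - 1) = X * X - 1 := fun X => by
        have h3 : X + X = 0 := by
          ext i j; exact (show ∀ a : ZMod 2, a + a = 0 by decide) (X i j)
        have h4 : (1 : Mat2 (ZMod 2)) + 1 = 0 := by
          ext i j; exact (show ∀ a : ZMod 2, a + a = 0 by decide) _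
        calc (X - 1) * (X - 1) = X * X - (X + X) + 1 := by noncomm_ring
          _ = X * X - 1 := by
              rw [h3, sub_zero, eq_comm, sub_eq_iff_eq_add, add_assoc, h4, add_zero]
      rw [h2, sub_eq_zero] at h'
      exact h'
    · obtain ⟨σ, hσ, hne⟩ := exists_inertia_mat_ne_one B hΔ hq (hodd q hq hqΔ) hA
      exact ⟨σ, hσ, fun h => hne ((resRep_eq_one_iff B σ).1 h)⟩
  have hsurj : ∀ M : Mat2 (ZMod 2), M.det ≠ 0 → ∃ σ : Gal2, resRep B σ = M := by
    intro M hM
    obtain ⟨A, hA⟩ := GalCommon.exists_liesOverPrime Nat.prime_two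
    obtain ⟨hsq, σ₂, hσ₂, hne⟩ := hram 2 Nat.prime_two (dvd_mul_right 2 m) A hA
    have ht : ∃ σ, mat B 1 σ * mat B 1 σ = 1 ∧ mat B 1 σ ≠ 1 := by
      refine ⟨σ₂, ?_, fun h => hne ((resRep_eq_one_iff B σ₂).2 h)⟩
      rw [← mat_mul]
      exact (resRep_eq_one_iff B _).1 (by rw [map_mul]; exact hsq σ₂ hσ₂)
    set X : Matrix (Fin 2) (Fin 2) (ZMod (2 ^ 1)) :=
      M.map fun a => ((a.val : ℕ) : ZMod (2 ^ 1)) with hX
    have hXM : psi.mapMatrix X = M := by
      ext i j
      simp [hX, psi]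
    obtain ⟨σ, hσ⟩ := exists_mat_one_eq B hΔ hirr ht X fun h => hM (by
      rw [← hXM, ← RingHom.map_det, h, map_zero])
    exact ⟨σ, by rw [resRep_eq_psi, hσ, hXM]⟩
  have hsign : ∀ (σ : Gal2) (x : AlgebraicClosure ℚ), x ^ 2 = -(2 * m : ℕ) →
      (σ x = x ↔ resRep B σ ^ 3 = 1) := by
    intro σ x hx
    have hΔs : (E.Δ : AlgebraicClosure ℚ) = x ^ 2 * (s : AlgebraicClosure ℚ) ^ 2 := by
      have hz : E.Δ = -((2 * m * s ^ 2 : ℕ) : ℤ) := by
        rw [h2m, ← hs, hn, Int.ofNat_natAbs_of_nonpos hneg.le, neg_neg]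
      rw [hz, hx]; push_cast; ring
    have hs0 : (s : AlgebraicClosure ℚ) ≠ 0 := fun h => hΔ (by
      have : (E.Δ : AlgebraicClosure ℚ) = 0 := by rw [hΔs, h]; ring
      exact_mod_cast this)
    have hcube : resRep B σ ^ 3 = 1 ↔ mat B 1 σ ^ 3 = 1 := by
      rw [resRep_eq_psi, ← map_pow, mapMatrix_psi_eq_one]
    rw [hcube, ← apply_sqrtDisc B σ]
    rcases eq_or_eq_neg_of_sq_eq_sq (sqrtDisc B) (x * s) (by rw [sqrtDisc_sq, hΔs]; ring) with
      h | h <;> simp [h, map_mul, map_natCast, hs0]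
  have hunram : ∀ q : ℕ, q.Prime → ¬ q ∣ 2 * m → IsUnram (tateRep B) q := by
    intro q hq hqm A hA σ hσ
    have hgood : ¬ (q : ℤ) ∣ E.Δ := fun h => hqm ((hdvd q hq).2 h)
    refine tateRep_eq_one_of_forall B fun k x hx => ?_
    refine Local.Curve.smul_eq_of_good hq hA hgood (fun h => hqm ?_) hσ hx
    rw [(Nat.prime_dvd_prime_iff_eq hq Nat.prime_two).1 (hq.dvd_of_dvd_pow h)]
    exact dvd_mul_right 2 m
  let D : Setup :=
    { m := m
      odd_m := hmodd
      sqf_m := hsqf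
      rho := resRep B
      cont := by
        obtain ⟨L, hL, h⟩ := isCont_tateRep B hΔ 1
        refine ⟨L, hL, fun σ hσ => ?_⟩
        ext i j
        have h' := h σ hσ i j
        rw [pow_one, ← Ideal.mem_span_singleton, show (2 : ℤ_[2]) = ((2 : ℕ) : ℤ_[2]) from rfl,
          ← PadicInt.maximalIdeal_eq_span_p, ← PadicInt.ker_toZMod, RingHom.mem_ker,
          Matrix.sub_apply, map_sub, sub_eq_zero] at h'
        rw [resRep_apply, h']
        rcases eq_or_ne i j with rfl | hij <;> simp [*]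
      surj := hsurj
      unram := fun q hq hqm A hA σ hσ => by
        rw [show resRep B σ = (PadicInt.toZMod (p := 2)).mapMatrix (tateRep B σ) from rfl,
          hunram q hq hqm A hA σ hσ, map_one]
      ram := hram
      sign_field := hsign }
  refine ⟨D, u, tateRep B,
    ⟨isCont_tateRep B hΔ, fun f σ => ?_, fun σ => hdet σ, fun v hv => ?_, fun q hq hqS => ?_⟩,
    hdvd, fun l hl hlm A hA φ hφ => ?_⟩
  · ext i j
    exact padic_hom_eq f _
  · rcases hv with ⟨hvp, hv | ⟨t, ht, -⟩⟩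
    · exact hu v hvp ((hdvd v hvp).1 hv)
    · simp at ht
  · exact hunram q hq fun h => hqS ⟨hq, Or.inl h⟩
  · refine trace_tateRep B hΔ hsome hl ?_ (fun h => hlm ((hdvd l hl).2 h)) hA hφ
    rintro rfl
    exact hlm (dvd_mul_right 2 m)

/-- An eigensystem of level `N` with the traces of `E` makes `E` modular of level `N`. -/
theorem isModularModelOfLevel_of_eigensystem (E : WeierstrassCurve ℤ) (N : ℕ) [NeZero N]
    (f : CuspForm.heckeAlgebra N 2 ∅ →+* ℤ_[2])
    (hT : ∀ (l : ℕ) (hl : l.Prime) (hlN : ¬ l ∣ N), E.IsGoodPrimeFor l →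
      f (CuspForm.heckeAlgebra.T hl hlN (Set.notMem_empty l)) = (E.apOfModel l : ℤ_[2])) :
    E.IsModularModelOfLevel N := by
  let C : Subring ℂ := (Int.castRingHom ℂ).range
  let eZ : ℤ ≃+* C := RingEquiv.ofBijective (Int.castRingHom ℂ).rangeRestrict
    ⟨fun a b h => Int.cast_injective (congrArg Subtype.val h),
      RingHom.rangeRestrict_surjective _⟩
  let e : C →+* ℚ_[2] := (Int.castRingHom ℚ_[2]).comp eZ.symm.toRingHom
  have he : Function.Injective e :=
    (RingHom.injective_int (Int.castRingHom ℚ_[2])).comp eZ.symm.injective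
  let S : Set ℕ := {q | q ∣ N ∨ (q : ℤ) ∣ E.Δ}
  let ψ : ↥(CuspForm.heckeAlgebra N 2 S) →+* ℚ_[2] :=
    (PadicInt.Coe.ringHom (p := 2)).comp (f.comp (Local.inclS S))
  obtain ⟨g, hg, hgc⟩ := Local.exists_eigenform_of_hom_away (S := S)
    (fun q _ h => Or.inl h) e he (fun ℓ => eZ (E.apOfModel ℓ)) ψ fun ℓ hℓ hℓN hℓS => by
      have h : Local.inclS S (CuspForm.heckeAlgebra.T hℓ hℓN hℓS) =
          CuspForm.heckeAlgebra.T hℓ hℓN (Set.notMem_empty ℓ) := rfl
      simp only [ψ, RingHom.comp_apply, h]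
      rw [hT ℓ hℓ hℓN fun hd => hℓS (Or.inr hd)]
      simp [e]
  refine ⟨g, hg, fun p hp hgood hpN => ?_⟩
  rw [hgc p hp (fun h => h.elim hpN hgood)]
  rfl

end FLTAgent.Mod2
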