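import Fermat.Agent.Mod2.RT.Main

/-!
# `R = T` for the minimal problem

`exists_hom_of_isDef`: given `ThetaProp`, a set of auxiliary primes killing the Selmer group and a
tower, a minimal deformation comes from a homomorphism of the Hecke algebra of level `2 m`
(a restatement of `Tower.exists_hom_minimal`).
-/

set_option autoImplicit false

namespace FLTAgent.Mod2

/-- Minimal deformations are modular of level `2 m`. -/
theorem exists_hom_of_isDef (D : Setup) (hθ : D.ThetaProp) (hsel : ∃ S, D.SelTrivial S)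
    (W : Tower D) (B : Type) [CommRing B] [IsLocalRing B] [Algebra ℤ_[2] B]
    [Module.Finite ℤ_[2] B] (hres : Nonempty (B →+* ZMod 2)) (u : ℕ → B) (r : Gal2 →* Mat2 B)
    (hr : D.IsDef ∅ u r) :
    ∃ f : CuspForm.heckeAlgebra (2 * D.m) 2 ∅ →+* B,
      ∀ (l : ℕ) (hl : l.Prime) (hlN : ¬ l ∣ 2 * D.m)
        (A : ValuationSubring (AlgebraicClosure ℚ)), A.LiesOverPrime l →
          ∀ φ : Gal2, A.IsFrobeniusAt φ l →
            f (CuspForm.heckeAlgebra.T hl hlN (Set.notMem_empty l)) = (r φ).trace := by
  obtain ⟨S, hS⟩ := hsel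
  exact W.exists_hom_minimal hθ hS B hres u r hr

end FLTAgent.Mod2
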