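import Fermat.Agent.Mod2.Defs
import Fermat.Agent.Mod2.Dihedral.Eigensystem

/-!
# The residual eigensystem of level `2 m`

`exists_residual_eigensystem`: a homomorphism from the Hecke algebra of level `2 m` to `𝔽₂` with
the traces of `ρ̄` and `U = 1`, namely the theta series of the cubic class character
(`Dih.exists_theta`).
-/

set_option autoImplicit false

namespace FLTAgent.Mod2

/-- The residual eigensystem of level `2 m`: the theta series of the cubic class character. -/
theorem exists_residual_eigensystem (D : Setup) (_hθ : D.ThetaProp) :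
    ∃ θ : CuspForm.heckeAlgebra (2 * D.m) 2 ∅ →+* ZMod 2,
      (∀ (l : ℕ) (hl : l.Prime) (hlN : ¬ l ∣ 2 * D.m)
        (A : ValuationSubring (AlgebraicClosure ℚ)), A.LiesOverPrime l →
          ∀ φ : Gal2, A.IsFrobeniusAt φ l →
            θ (CuspForm.heckeAlgebra.T hl hlN (Set.notMem_empty l)) = (D.rho φ).trace) ∧
      ∀ (v : ℕ) (hv : v.Prime) (hvN : v ∣ 2 * D.m),
        θ (CuspForm.heckeAlgebra.U hv hvN (Set.notMem_empty v)) = 1 :=
  Dih.exists_theta D

end FLTAgent.Mod2
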