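import Fermat.Agent.Mod2.TowerLower

/-!
# Existence of the Hecke tower

The theta series gives the maximal ideal of `ρ̄` at level `2 m`, hence at every level `2 m ∏ G`;
`nonempty_tower` puts together the results on the localised Hecke rings, their Galois matrices,
Ihara's lemma and Mazur's principle into a `Tower`.
-/

set_option autoImplicit false

noncomputable section

open Matrix

namespace FLTAgent.Mod2

/-- The localised Hecke algebras of levels `2 m ∏ G` exist, given a residual eigensystem at level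
`2 m`. -/
theorem nonempty_tower (D : Setup)
    (θ : CuspForm.heckeAlgebra (2 * D.m) 2 ∅ →+* ZMod 2)
    (hT : ∀ (l : ℕ) (hl : l.Prime) (hlN : ¬ l ∣ 2 * D.m)
      (A : ValuationSubring (AlgebraicClosure ℚ)), A.LiesOverPrime l →
        ∀ φ : Gal2, A.IsFrobeniusAt φ l →
          θ (CuspForm.heckeAlgebra.T hl hlN (Set.notMem_empty l)) = (D.rho φ).trace)
    (hU : ∀ (v : ℕ) (hv : v.Prime) (hvN : v ∣ 2 * D.m),
      θ (CuspForm.heckeAlgebra.U hv hvN (Set.notMem_empty v)) = 1) :
    Nonempty (Tower D) := by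
  have h0 := nonempty_resSys_two θ hT hU
  choose S _ using fun G => (exists_resSys h0 G).elim fun S => (⟨S, trivial⟩ :
    ∃ S : ResSys (lvl D G) D, True)
  choose b hb using fun G => exists_basis_lifts (levelHyp_lvl G) (S G)
  choose π h1 h2 h3 h4 using exists_pi_tower S
  have hne : ∀ {G : Finset D.Aux} {q : D.Aux}, q ∈ G → ¬ q.1 ∣ lvl D (G.erase q) := fun {G q} _ =>
    not_dvd_lvl q.2.1 (by
      rintro ⟨-, h | ⟨s, hs, he⟩⟩
      · exact q.2.2.1 h
      · exact (Finset.mem_erase.1 hs).1 (Subtype.ext he))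
  have hodd : ∀ q : D.Aux, q.1 ≠ 2 := fun q h => q.2.2.1 (h ▸ dvd_mul_right 2 D.m)
  have h2s : ∀ {G : Finset D.Aux} {q : ℕ}, ¬ D.IsSpecial G q → q ≠ 2 := fun {G q} h h2 =>
    h ⟨h2 ▸ Nat.prime_two, Or.inl (h2 ▸ dvd_mul_right 2 D.m)⟩
  exact ⟨{
    T := fun G => locHecke (S G).θ
    red := fun G => locRed (S G).θ
    t := fun G => locGen (S G).θ
    adjoin_eq_top := fun G => adjoin_locGen
    r := fun G => galBasis (b G)
    cont := fun G => isCont_galBasis (b G)
    lifts := hb
    det := fun G σ => det_galBasis (b G) σ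
    unram := fun G q hq h A hA σ hσ => galBasis_eq_one (b G)
      ((Reps.galModel (lvl D G) 2).inertia_trivial q hq (not_dvd_lvl hq h) (h2s h) A hA σ hσ)
    trace_frob := fun G q hq h A hA φ hφ =>
      trace_galBasis_frob (b G) hq (not_dvd_lvl hq h) (h2s h) hA hφ
    red_t := fun G v hv => locRed_locGen_eq_one (S G) hv.1 (dvd_lvl hv)
    special := fun G v hv h => specialAt_galBasis (b G) (levelHyp_lvl G) hv h
    aux_inertia := fun G q hq A hA σ hσ τ hτ => by
      obtain ⟨φ, hφ⟩ := GalCommon.exists_isFrobeniusAt q.2.1 hA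
      simpa using galBasis_mul_eq_zero (b G) fun w =>
        (odd_relations (lvl_erase_mul hq) q.2.1 (hodd q) (hne hq) hA hσ hτ hφ w).1
    aux_frob := fun G q hq A hA σ hσ φ hφ => by
      constructor
      · simpa using galBasis_mul_eq_zero (b G) fun w =>
          (odd_relations (lvl_erase_mul hq) q.2.1 (hodd q) (hne hq) hA hσ hσ hφ w).2.1
      · simpa using galBasis_mul_eq_zero (b G) fun w =>
          (odd_relations (lvl_erase_mul hq) q.2.1 (hodd q) (hne hq) hA hσ hσ hφ w).2.2
    aux_cyclic := fun G q hq A hA =>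
      exists_galBasis_cyclic (lvl_erase_mul hq) (b G) q.2.1 (hodd q) (hne hq) A hA
    pi := π
    pi_t := h1
    pi_u := h2
    ker_pi := h3
    saturated := h4
    lower := fun G q hq I n hn hI x hx => mem_of_unramified_basis q.2.1 (lvl_erase_mul hq)
      (levelHyp_lvl G) (levelHyp_lvl _) (hne hq) (S G) (b G) I hn hI ((h3 G q hq x).1 hx)
    weil := fun G q hq K _ _ f => by
      have hqL : ¬ q.1 ∣ lvl D G := not_dvd_lvl q.2.1 (by
        rintro ⟨-, h | ⟨s, hs, he⟩⟩
        · exact q.2.2.1 h
        · exact hq (Subtype.ext he ▸ hs))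
      constructor
      · have := locGen_ne (S G).θ q.2.1 hqL f (c := (q.1 : ℤ) + 1) (abs_of_nonneg (by positivity))
        simpa [add_comm] using this
      · have := locGen_ne (S G).θ q.2.1 hqL f (c := -((q.1 : ℤ) + 1))
          (by rw [abs_neg]; exact abs_of_nonneg (by positivity))
        simpa [add_comm] using this
    hecke := heckeBottom (S ∅)
    hecke_T := heckeBottom_T (S ∅)
    hecke_U := heckeBottom_U (S ∅)
    hecke_lift := fun B => heckeBottom_lift (S ∅) B }⟩

end FLTAgent.Mod2
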