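import Fermat.Agent.Mod2.Defs
import Fermat.Agent.Mod2.Iface.Tower
import Fermat.Agent.Mod2.Dihedral.Assembly

/-!
# Dihedral systems in characteristic 2 are modular of level `2 m`

`thetaProp` proves `ThetaProp` for every `Setup`: the theta eigensystem gives a Hecke tower, from
which the modularity of dihedral systems follows (`Dih.thetaProp_of_tower`).
-/

set_option autoImplicit false

namespace FLTAgent.Mod2

/-- Theta series with coefficients in a finite local ring of characteristic 2. -/
theorem thetaProp (D : Setup) : D.ThetaProp := by
  obtain ⟨θ, hT, hU⟩ := Dih.exists_theta D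
  obtain ⟨W⟩ := nonempty_tower D θ hT hU
  exact Dih.thetaProp_of_tower D W

end FLTAgent.Mod2
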