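import Fermat.Agent.Mod2.Defs
import Fermat.Agent.Mod2.Select.Main

/-!
# Selection of auxiliary primes

`exists_selTrivial`: a finite set of auxiliary primes kills the Selmer group
(`Select.exists_trivial_classes`).
-/

set_option autoImplicit false

namespace FLTAgent.Mod2

/-- A finite set of auxiliary primes kills the Selmer group. -/
theorem exists_selTrivial (D : Setup) : ∃ S : Finset D.Aux, D.SelTrivial S :=
  Select.exists_trivial_classes D

end FLTAgent.Mod2
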